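import Fermat.Agent.SelbergHadamard.Criteria
import Fermat.Agent.Root.SummarySelbergZeroCount
import Fermat.Agent.Root.SummaryVonKoch

/-!
# The zeros of the completed function
-/

set_option autoImplicit false

noncomputable section

open Complex Filter Topology Set
open scoped Real ComplexConjugate
open FA.DegreeGap (HasFunctionalEquation degree gammaFactor)
open FA.SelbergClass (HasEulerProduct)
open FA.SelbergStructure (euler_congr euler_shiftChar shiftChar)

namespace FA.SelbergHadamard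

variable {a : ℕ → ℂ} {m : ℕ} {E : ℂ → ℂ} {r : ℕ} {lam : Fin r → ℝ} {mu : Fin r → ℂ} {Q : ℝ}
  {omega : ℂ}

/-- **Infinitely many zeros in positive degree.** -/
theorem infinite_xiF_zeros (h : HasFunctionalEquation a m E lam mu Q omega)
    (he : HasEulerProduct a) (hd : 0 < degree lam) :
    {ρ | xiF m E lam mu Q omega ρ = 0}.Infinite := by
  refine ((((FA.SelbergZeroCountSummary.selberg_zero_count_asymptotic h he).2 hd).sdiff
    (Set.finite_range fun j => -mu j / (lam j : ℂ))).mono fun ρ hρ => ?_)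
  obtain ⟨⟨hE, h0, h1⟩, hex⟩ := hρ
  rcases h0.eq_or_lt with heq | hlt
  · refine (xiF_eq_right_of_no_pole h h0 fun j n e => hex ⟨j, ?_⟩).trans (by simp [xiRight, hE])
    have hre := congrArg Complex.re e
    rw [add_re, re_ofReal_mul, ← heq, mul_zero, zero_add, Complex.neg_re,
      Complex.natCast_re] at hre
    have hn : n = 0 := by
      have : (n : ℝ) ≤ 0 := by linarith [h.mu_re j]
      exact_mod_cast le_antisymm this (Nat.cast_nonneg n)
    rw [hn, Nat.cast_zero, neg_zero] at e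
    show -mu j / (lam j : ℂ) = ρ
    rw [div_eq_iff (ofReal_ne_zero.2 (h.lam_pos j).ne')]
    linear_combination -e
  · exact (xiF_eq_zero_iff h hlt).2 hE

theorem exists_xiF_zero (h : HasFunctionalEquation a m E lam mu Q omega)
    (he : HasEulerProduct a) (hd : 0 < degree lam) : ∃ ρ, xiF m E lam mu Q omega ρ = 0 :=
  (infinite_xiF_zeros h he hd).nonempty

/-- If `L` has no zero on `re s = 1`, all zeros are in the open strip. -/
theorem xiF_zero_open_strip (h : HasFunctionalEquation a m E lam mu Q omega)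
    (he : HasEulerProduct a) (h1 : ∀ s : ℂ, s.re = 1 → E s ≠ 0) {ρ : ℂ}
    (hρ : xiF m E lam mu Q omega ρ = 0) : E ρ = 0 ∧ 0 < ρ.re ∧ ρ.re < 1 := by
  have hd := isSelfDual_xiF h he
  obtain ⟨hl, hr⟩ := hd.zero_strip hρ
  have key : ∀ z : ℂ, xiF m E lam mu Q omega z = 0 → z.re ≠ 1 := fun z hz e =>
    h1 z e ((xiF_eq_zero_iff h (by rw [e]; exact one_pos)).1 hz)
  have hl' : 0 < ρ.re := hl.lt_of_ne fun e =>
    key _ ((hd.eq_zero_mirror_iff ρ).2 hρ) (by simp [← e])
  exact ⟨(xiF_eq_zero_iff h hl').1 hρ, hl', hr.lt_of_ne (key ρ hρ)⟩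

theorem xiF_zero_ne (h : HasFunctionalEquation a m E lam mu Q omega) (he : HasEulerProduct a)
    (h1 : ∀ s : ℂ, s.re = 1 → E s ≠ 0) : xiF m E lam mu Q omega 0 ≠ 0 := fun e => by
  simpa using (xiF_zero_open_strip h he h1 e).2.1

theorem zerosOnLine_iff_strip (h : HasFunctionalEquation a m E lam mu Q omega)
    (he : HasEulerProduct a) (h1 : ∀ s : ℂ, s.re = 1 → E s ≠ 0) :
    ZerosOnLine (xiF m E lam mu Q omega) ↔
      ∀ ρ, E ρ = 0 → 0 < ρ.re → ρ.re < 1 → ρ.re = 1 / 2 := by
  refine ⟨fun hG ρ hE h0 _ => hG ρ ((xiF_eq_zero_iff h h0).2 hE), fun hS ρ hρ => ?_⟩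
  obtain ⟨hE, h0, hlt⟩ := xiF_zero_open_strip h he h1 hρ
  exact hS ρ hE h0 hlt

theorem euler_one : HasEulerProduct 1 :=
  euler_congr (euler_shiftChar (1 : DirichletCharacter ℂ 1) 0)
    fun k _ => by simp [shiftChar, MulChar.one_apply (isUnit_of_subsingleton _)]

theorem zetaEntire_eq_mul {s : ℂ} (hs : s ≠ 1) :
    FA.DegreeOne.zetaEntire s = (s - 1) * riemannZeta s := by
  have h := FA.DegreeOne.zeta_hasFunctionalEquation
  have hd : DifferentiableOn ℂ (fun s => (s - 1) * riemannZeta s) {1}ᶜ := fun s hs =>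
    ((differentiableAt_id.sub_const 1).mul (differentiableAt_riemannZeta hs)).differentiableWithinAt
  refine (analyticOnNhd_univ_iff_differentiable.2 h.differentiable |>.mono
    (Set.subset_univ _)).eqOn_of_preconnected_of_eventuallyEq
      (hd.analyticOnNhd isOpen_compl_singleton)
      (isConnected_compl_singleton_of_one_lt_rank (by simp) 1).isPreconnected
      (z₀ := 2) (by norm_num) ?_ hs
  filter_upwards [(isOpen_lt continuous_const continuous_re).mem_nhds
    (show (1 : ℝ) < (2 : ℂ).re by norm_num)] with z hz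
  rw [h.eq_series z hz, pow_one, LSeries_one_eq_riemannZeta hz]

theorem zetaEntire_line_ne {s : ℂ} (hs : s.re = 1) : FA.DegreeOne.zetaEntire s ≠ 0 := by
  rcases eq_or_ne s 1 with rfl | hne
  · have hlim : Tendsto FA.DegreeOne.zetaEntire (𝓝[≠] 1) (𝓝 1) :=
      riemannZeta_residue_one.congr'
        (eventually_nhdsWithin_of_forall fun z hz => (zetaEntire_eq_mul hz).symm)
    rw [tendsto_nhds_unique ((FA.DegreeOne.zeta_hasFunctionalEquation.differentiable.continuous
      ).tendsto' 1 _ rfl |>.mono_left nhdsWithin_le_nhds) hlim]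
    exact one_ne_zero
  · rw [zetaEntire_eq_mul hne]
    exact mul_ne_zero (sub_ne_zero.2 hne) (riemannZeta_ne_zero_of_one_le_re hs.ge)

theorem riemannHypothesis_iff_strip :
    RiemannHypothesis ↔ ∀ ρ, riemannZeta ρ = 0 → 0 < ρ.re → ρ.re < 1 → ρ.re = 1 / 2 := by
  refine ⟨fun h ρ hz h0 h1 => h ρ hz ?_ fun e => by rw [e] at h1; simp at h1, fun h => ?_⟩
  · rintro ⟨n, rfl⟩
    simp at h0
    linarith [(Nat.cast_nonneg n : (0 : ℝ) ≤ n)]
  · refine FA.VonKoch.Summary.riemannHypothesis_iff_psi.2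
      ((FA.VonKoch.Summary.zeroFree_iff_psi le_rfl (by norm_num)).1 fun s hs hs1 h0 => ?_)
    rcases lt_or_ge s.re 1 with hlt | hge
    · exact hs.ne' (h s h0 (by linarith) hlt)
    · exact riemannZeta_ne_zero_of_one_le_re hge h0

/-- `ξ` of `ζ`. -/
def xiZeta (s : ℂ) : ℂ :=
  xiF 1 FA.DegreeOne.zetaEntire (fun _ : Fin 1 => (1 / 2 : ℝ)) (fun _ => 0) (√π)⁻¹ 1 s

theorem xiZeta_eq {s : ℂ} (hs : 1 < s.re) :
    xiZeta s = s * (s - 1) * completedRiemannZeta s := by
  have h0 : s ≠ 0 := fun e => by rw [e, zero_re] at hs; linarith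
  rw [xiZeta, xiF_eq_series FA.DegreeOne.zeta_hasFunctionalEquation hs, pow_one,
    FA.DegreeOne.zeta_gammaFactor, LSeries_one_eq_riemannZeta hs, riemannZeta_def_of_ne_zero h0,
    mul_assoc (s * (s - 1)), mul_div_cancel₀ _ (Gammaℝ_ne_zero_of_re_pos (by linarith))]

/-- The multiplicities are those of `riemannZeta`. -/
theorem order_xiZeta {ρ : ℂ} (h0 : 0 < ρ.re) (h1 : ρ ≠ 1) :
    analyticOrderNatAt xiZeta ρ = analyticOrderNatAt riemannZeta ρ := by
  have h := FA.DegreeOne.zeta_hasFunctionalEquation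
  refine ((congrArg ENat.toNat (order_xiF h h0) :
    analyticOrderNatAt xiZeta ρ = analyticOrderNatAt FA.DegreeOne.zetaEntire ρ).trans
      (FA.SelbergZeroCount.order_div_pow h h1).symm).trans (congrArg ENat.toNat
        (analyticOrderAt_congr ?_))
  filter_upwards [isOpen_compl_singleton.mem_nhds h1] with s hs
  rw [zetaEntire_eq_mul hs, pow_one, mul_div_cancel_left₀ _ (sub_ne_zero.2 hs)]

theorem zerosOnLine_xiZeta_iff : ZerosOnLine xiZeta ↔ RiemannHypothesis := by
  rw [riemannHypothesis_iff_strip]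
  refine (zerosOnLine_iff_strip FA.DegreeOne.zeta_hasFunctionalEquation euler_one
    fun _ hs => zetaEntire_line_ne hs).trans (forall_congr' fun ρ => ?_)
  have key : ρ.re < 1 → (FA.DegreeOne.zetaEntire ρ = 0 ↔ riemannZeta ρ = 0) := fun h1 => by
    have hne : ρ ≠ 1 := fun e => by rw [e, one_re] at h1; exact lt_irrefl _ h1
    rw [zetaEntire_eq_mul hne, mul_eq_zero, or_iff_right (sub_ne_zero.2 hne)]
  exact ⟨fun hf hz h0 h1 => hf ((key h1).2 hz) h0 h1,
    fun hf hz h0 h1 => hf ((key h1).1 hz) h0 h1⟩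

end FA.SelbergHadamard

end
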