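import Fermat.Agent.SelbergHadamard.Completed
import Fermat.Agent.DedekindHadamard.Product
import Fermat.Agent.DirichletHadamard.Zeros
import Fermat.Agent.SelbergZeroCount.ArgPrinciple

/-!
# An entire function of order one that is its own reflection

`X s = c conj (X (1 - conj s))` with `|c| = 1` and no zeros in `re s > 1`: Hadamard's product about
`2`, and `re (X'/X) s = ∑ m re (1 / (s - ρ))`.
-/

set_option autoImplicit false

noncomputable section

open Complex Filter Topology Set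
open scoped Real ComplexConjugate
open FA.DedekindHadamard (fMult)
open FA.DeuringHeilbronn (Grows)

namespace FA.SelbergHadamard

/-- An entire function of order one, nonvanishing in `re s > 1`, that is its own reflection. -/
structure IsSelfDual (X : ℂ → ℂ) : Prop where
  differentiable : Differentiable ℂ X
  growth : ∃ B : ℝ, ∀ s, ‖X s‖ ≤ Real.exp (B * growY ‖s‖)
  reflection : ∃ c : ℂ, ‖c‖ = 1 ∧ ∀ s, X s = c * conj (X (1 - conj s))
  ne_zero : ∀ s : ℂ, 1 < s.re → X s ≠ 0

theorem isSelfDual_xiF {a : ℕ → ℂ} {m : ℕ} {E : ℂ → ℂ} {r : ℕ} {lam : Fin r → ℝ} {mu : Fin r → ℂ}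
    {Q : ℝ} {omega : ℂ} (h : FA.DegreeGap.HasFunctionalEquation a m E lam mu Q omega)
    (he : FA.SelbergClass.HasEulerProduct a) : IsSelfDual (xiF m E lam mu Q omega) :=
  ⟨differentiable_xiF h, exists_growth_xiF h, ⟨omega, h.norm_omega, xiF_reflect h⟩,
    fun _ hs => xiF_ne_zero h he hs⟩

/-- `ρ ↦ 1 - conj ρ`. -/
def mirror : ℂ ≃ ℂ where
  toFun ρ := 1 - conj ρ
  invFun ρ := 1 - conj ρ
  left_inv ρ := by simp
  right_inv ρ := by simp

theorem mirror_apply (ρ : ℂ) : mirror ρ = 1 - conj ρ := rfl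

/-- `m re (1 / (s - ρ))`. -/
def reTerm (X : ℂ → ℂ) (s ρ : ℂ) : ℝ := (fMult X ρ : ℝ) * ((s - ρ)⁻¹).re

namespace IsSelfDual

variable {X : ℂ → ℂ} (h : IsSelfDual X)

include h

theorem two_ne : X 2 ≠ 0 := h.ne_zero 2 (by norm_num)

theorem norm_mirror (s : ℂ) : ‖X (1 - conj s)‖ = ‖X s‖ := by
  obtain ⟨c, hc, hX⟩ := h.reflection
  rw [hX s, norm_mul, hc, one_mul, Complex.norm_conj]

theorem eq_zero_mirror_iff (s : ℂ) : X (1 - conj s) = 0 ↔ X s = 0 := by
  rw [← norm_eq_zero, h.norm_mirror, norm_eq_zero]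

theorem zero_strip {s : ℂ} (hs : X s = 0) : 0 ≤ s.re ∧ s.re ≤ 1 := by
  constructor <;> by_contra hc
  · exact h.ne_zero (1 - conj s) (by simp; linarith) ((h.eq_zero_mirror_iff s).2 hs)
  · exact h.ne_zero s (not_le.1 hc) hs

theorem order_ne_top (z : ℂ) : analyticOrderAt X z ≠ ⊤ :=
  FA.SelbergZeroCount.order_ne_top h.differentiable h.two_ne z

theorem mult_ne_zero_iff {z : ℂ} : fMult X z ≠ 0 ↔ X z = 0 := by
  refine ⟨fun hm => apply_eq_zero_of_analyticOrderNatAt_ne_zero hm, fun hz hm => ?_⟩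
  rw [fMult, analyticOrderNatAt] at hm
  rcases ENat.toNat_eq_zero.1 hm with hm | hm
  · exact (h.differentiable.analyticAt z).analyticOrderAt_ne_zero.2 hz hm
  · exact h.order_ne_top z hm

/-- **`ρ` and `1 - conj ρ` have the same multiplicity.** -/
theorem mult_mirror (ρ : ℂ) : fMult X (1 - conj ρ) = fMult X ρ := by
  obtain ⟨c, hc, hX⟩ := h.reflection
  obtain ⟨G, hG⟩ : ∃ G : ℂ → ℂ, G = fun w => X (1 - w) := ⟨_, rfl⟩
  have hGd : Differentiable ℂ G := hG ▸ h.differentiable.comp (differentiable_id.const_sub 1)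
  have hord : analyticOrderAt G (conj ρ) = analyticOrderAt X (1 - conj ρ) := by
    rw [hG]
    exact analyticOrderAt_comp_of_deriv_ne_zero (f := X) (analyticAt_const.sub analyticAt_id)
      (by simp)
  have hn : analyticOrderAt G (conj ρ) = (fMult X (1 - conj ρ) : ℕ) := by
    rw [hord, fMult, analyticOrderNatAt, ENat.natCast_toNat (h.order_ne_top _)]
  have h1 := FA.DirichletHadamard.analyticOrderAt_conj_comp hGd hn
  rw [Complex.conj_conj] at h1
  have hA : AnalyticAt ℂ (conj ∘ G ∘ conj) ρ :=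
    Differentiable.analyticAt (fun z => differentiableAt_conj_conj_iff.2 (hGd _)) ρ
  have h2 : analyticOrderAt X ρ = (fMult X (1 - conj ρ) : ℕ) := by
    rw [← h1, show X = (fun _ => c) * (conj ∘ G ∘ conj) from funext fun s => by
      rw [Pi.mul_apply, hG]; exact hX s, analyticOrderAt_mul analyticAt_const hA,
      analyticAt_const.analyticOrderAt_eq_zero.2 (fun e => by simp [e] at hc), zero_add]
  conv_rhs => rw [fMult, analyticOrderNatAt, h2, ENat.toNat_natCast]

/-- `X'/X` is odd about the line. -/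
theorem logDeriv_mirror (s : ℂ) :
    logDeriv X (1 - conj s) = -conj (logDeriv X s) := by
  obtain ⟨c, hc, hX⟩ := h.reflection
  have hc0 : c ≠ 0 := fun e => by simp [e] at hc
  obtain ⟨w, hw⟩ : ∃ w, w = 1 - conj s := ⟨_, rfl⟩
  have hs : s = 1 - conj w := by simp [hw]
  have h1 : HasDerivAt (fun z => X (1 - z)) (-deriv X (1 - conj w)) (conj w) := by
    exact ((h.differentiable _).hasDerivAt.comp (conj w)
      ((hasDerivAt_id' (conj w)).const_sub 1)).congr_deriv (by ring)
  have h2 := h1.conj_conj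
  rw [Complex.conj_conj] at h2
  have h3 : deriv X w = c * conj (-deriv X (1 - conj w)) := by
    refine (HasDerivAt.congr_of_eventuallyEq (h2.const_mul c) (Eventually.of_forall fun z => ?_)
      ).deriv
    exact hX z
  rw [logDeriv_apply, logDeriv_apply, ← hw, h3, hX w, ← hs, map_neg, map_div₀]
  field_simp

theorem exists_grows_shift : ∃ B : ℝ, 0 < B ∧ Grows (fun z => X (z + 2)) B := by
  obtain ⟨B, hB⟩ := h.growth
  refine ⟨6 * |B| + |Real.log ‖X 2‖| + 1, by positivity, fun z => ?_⟩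
  have h2 : 0 < ‖X 2‖ := norm_pos_iff.2 h.two_ne
  have hz := norm_nonneg z
  have hY := (le_growY hz).2.2
  have hY' := (le_growY (norm_nonneg (z + 2))).2.2
  show ‖X (z + 2)‖ ≤ Real.exp (_ * growY ‖z‖) * ‖X (0 + 2)‖
  rw [zero_add]
  refine (hB (z + 2)).trans ?_
  rw [← Real.exp_log h2, ← Real.exp_add]
  refine Real.exp_le_exp.2 ?_
  have h3 : B * growY ‖z + 2‖ ≤ |B| * (6 * growY ‖z‖) :=
    (mul_le_mul_of_nonneg_right (le_abs_self B) (by linarith)).trans
      (mul_le_mul_of_nonneg_left (growY_le_of_le hz (norm_nonneg _)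
        ((norm_add_le _ _).trans (by rw [Complex.norm_ofNat]))) (abs_nonneg B))
  have h4 := (neg_le_abs (Real.log ‖X 2‖)).trans (le_mul_of_one_le_right (abs_nonneg _) hY)
  rw [Real.log_exp, add_mul, add_mul, one_mul, mul_comm 6 |B|, mul_assoc]
  linarith

omit h in
theorem mult_shift (z : ℂ) : fMult (fun w => X (w + 2)) z = fMult X (z + 2) := by
  rw [fMult, fMult, analyticOrderNatAt, analyticOrderNatAt]
  refine congrArg ENat.toNat ?_
  exact analyticOrderAt_comp_of_deriv_ne_zero (f := X) (analyticAt_id.add analyticAt_const)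
    (by simp)

/-- `∑ m / |ρ - 2| ^ 2` converges. -/
theorem summable_inv_sq :
    Summable fun ρ : ℂ => (fMult X ρ : ℝ) * (‖ρ - 2‖ ^ 2)⁻¹ := by
  obtain ⟨B, hB, hg⟩ := h.exists_grows_shift
  have hs := FA.DedekindHadamard.summable_inv_sq
    (h.differentiable.comp (differentiable_id.add_const 2)) (by simpa using h.two_ne) hB.le hg
  refine ((Equiv.addRight (-2 : ℂ)).summable_iff.2 hs).congr fun ρ => ?_
  simp only [Function.comp_apply, Equiv.coe_addRight, Function.comp_def, id, mult_shift,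
    ← sub_eq_add_neg, sub_add_cancel]

/-- **The hypothesis of Bombieri and Lagarias.** -/
theorem summable_weight :
    Summable fun ρ : ℂ => (fMult X ρ : ℝ) * ((1 + |ρ.re|) / (1 + ‖ρ‖) ^ 2) := by
  refine (h.summable_inv_sq.mul_left 8).of_nonneg_of_le (fun ρ => by positivity) fun ρ => ?_
  by_cases hm : fMult X ρ = 0
  · simp [hm]
  obtain ⟨h0, h1⟩ := h.zero_strip (h.mult_ne_zero_iff.1 hm)
  rw [mul_left_comm]
  refine mul_le_mul_of_nonneg_left ?_ (Nat.cast_nonneg _)
  have hne : 0 < ‖ρ - 2‖ := norm_pos_iff.2 fun e => by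
    rw [sub_eq_zero.1 e] at h1
    norm_num at h1
  have htri : ‖ρ - 2‖ ≤ ‖ρ‖ + 2 := (norm_sub_le _ _).trans (by rw [Complex.norm_ofNat])
  rw [abs_of_nonneg h0, ← div_eq_mul_inv, div_le_div_iff₀ (by positivity) (by positivity)]
  nlinarith [pow_le_pow_left₀ hne.le htri 2, norm_nonneg ρ]

/-- **The partial fractions of `X'/X`.** -/
theorem hasSum_frac {s : ℂ} (hs : X s ≠ 0) :
    HasSum (fun ρ : ℂ => (fMult X ρ : ℂ) * ((s - ρ)⁻¹ + (ρ - 2)⁻¹))
      (logDeriv X s - logDeriv X 2) := by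
  obtain ⟨B, hB, hg⟩ := h.exists_grows_shift
  have hsum := FA.DedekindHadamard.hasSum_fracPart
    (h.differentiable.comp (differentiable_id.add_const 2)) (by simpa using h.two_ne) hB hg
    (s := s - 2) (by simpa using hs)
  have hl : ∀ z, logDeriv (X ∘ fun w => id w + 2) z = logDeriv X (z + 2) := fun z => by
    rw [logDeriv_apply, logDeriv_apply]
    simp only [Function.comp_def, id, deriv_comp_add_const]
  rw [hl, hl, sub_add_cancel, zero_add] at hsum
  refine ((Equiv.addRight (-2 : ℂ)).hasSum_iff.2 hsum).congr_fun fun ρ => ?_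
  simp only [Function.comp_apply, Equiv.coe_addRight, FA.DedekindHadamard.fracPart,
    ← sub_eq_add_neg, Function.comp_def, id, mult_shift, sub_add_cancel, sub_sub_sub_cancel_right]

/-- **Hadamard's product about `2`.** -/
theorem hasProd_zeros (s : ℂ) :
    HasProd (fun ρ : {ρ : ℂ // fMult X ρ ≠ 0} =>
        ((1 - (s - 2) / ((ρ : ℂ) - 2)) * cexp ((s - 2) / ((ρ : ℂ) - 2))) ^ fMult X (ρ : ℂ))
      (X s / (X 2 * cexp (logDeriv X 2 * (s - 2)))) := by
  obtain ⟨B, hB, hg⟩ := h.exists_grows_shift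
  have hp := FA.DedekindHadamard.hasProd_canFactor
    (f := fun z => X (z + 2)) (h.differentiable.comp (differentiable_id.add_const 2))
    (by simpa using h.two_ne) hB hg (s - 2)
  have hl : logDeriv (fun z => X (z + 2)) 0 = logDeriv X 2 := by
    rw [logDeriv_apply, logDeriv_apply, deriv_comp_add_const, zero_add]
  rw [sub_add_cancel, zero_add, hl] at hp
  let e : {ρ : ℂ // fMult X ρ ≠ 0} ≃ FA.DedekindHadamard.FZero (fun z => X (z + 2)) :=
    (Equiv.addRight (-2 : ℂ)).subtypeEquiv fun ρ => by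
      rw [mult_shift, Equiv.coe_addRight, neg_add_cancel_right]
  refine (e.hasProd_iff.2 hp).congr_fun fun ρ => ?_
  simp only [Function.comp_apply, e, Equiv.subtypeEquiv_apply, Equiv.coe_addRight,
    FA.DedekindHadamard.canFactor, mult_shift, ← sub_eq_add_neg, sub_add_cancel]

theorem summable_re_shift :
    Summable fun ρ : ℂ => (fMult X ρ : ℝ) * ((ρ - 2)⁻¹).re := by
  refine Summable.of_norm_bounded (h.summable_inv_sq.mul_left 2) fun ρ => ?_
  rw [norm_mul, RCLike.norm_natCast, mul_left_comm]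
  by_cases hm : fMult X ρ = 0
  · simp [hm]
  refine mul_le_mul_of_nonneg_left ?_ (Nat.cast_nonneg _)
  obtain ⟨h0, h1⟩ := h.zero_strip (h.mult_ne_zero_iff.1 hm)
  rw [Real.norm_eq_abs, inv_re, normSq_eq_norm_sq, abs_div, abs_of_nonneg (sq_nonneg ‖ρ - 2‖),
    div_eq_mul_inv]
  refine mul_le_mul_of_nonneg_right ?_ (by positivity)
  rw [sub_re, re_ofNat, abs_le]
  constructor <;> linarith

theorem reTerm_mirror (s ρ : ℂ) : reTerm X (1 - conj s) (mirror ρ) = -reTerm X s ρ := by
  rw [reTerm, reTerm, mirror_apply, h.mult_mirror,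
    show 1 - conj s - (1 - conj ρ) = -conj (s - ρ) by rw [map_sub]; ring, inv_neg, ← map_inv₀,
    neg_re, conj_re, mul_neg]

/-- **`re (X'/X) s = ∑ m re (1 / (s - ρ))`**, absolutely. -/
theorem hasSum_reTerm {s : ℂ} (hs : X s ≠ 0) : HasSum (reTerm X s) (logDeriv X s).re := by
  obtain ⟨k, hk⟩ : ∃ k, k = -(logDeriv X 2).re - ∑' ρ : ℂ, (fMult X ρ : ℝ) * ((ρ - 2)⁻¹).re :=
    ⟨_, rfl⟩
  have aux : ∀ z, X z ≠ 0 → HasSum (reTerm X z) ((logDeriv X z).re + k) := fun z hz => by
    have h1 := (Complex.hasSum_re (h.hasSum_frac hz)).sub h.summable_re_shift.hasSum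
    rw [sub_re] at h1
    rw [hk, ← add_sub_assoc, ← sub_eq_add_neg]
    refine h1.congr_fun fun ρ => ?_
    rw [reTerm, ← ofReal_natCast, re_ofReal_mul, add_re]
    ring
  have h2 := mirror.hasSum_iff.2 (aux _ (fun e => h.two_ne ((h.eq_zero_mirror_iff 2).1 e)))
  have h3 := (h2.congr_fun (g := fun ρ => -reTerm X 2 ρ)
    fun ρ => (h.reTerm_mirror 2 ρ).symm).unique (aux 2 h.two_ne).neg
  rw [h.logDeriv_mirror, neg_re, conj_re] at h3
  have hk0 : k = 0 := by linarith
  simpa [hk0] using aux s hs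

end IsSelfDual

end FA.SelbergHadamard

end
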