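import Mathlib.Analysis.SpecificLimits.Normed
import Mathlib.Analysis.Complex.Basic
import Mathlib.Topology.MetricSpace.Pseudo.Pi
import Mathlib.Topology.Sequences
import Mathlib.Topology.Algebra.InfiniteSum.Real

/-!
# The criterion of Bombieri and Lagarias

For a multiset of `ρ ≠ 0` with `∑ m (1 + |re ρ|) / (1 + |ρ|)^2 < ∞`, all `re ρ ≥ 1/2` exactly
when `∑ m re (1 - (1 - 1/ρ)^n) ≥ 0` for every `n ≥ 1`.
-/

set_option autoImplicit false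

noncomputable section

open Complex Filter Topology Metric Set

namespace FA.BombieriLagarias

/-- `1 - 1/ρ`. -/
def liRatio (ρ : ℂ) : ℂ := 1 - ρ⁻¹

/-- `m re (1 - (1 - 1/ρ)^n)`. -/
def blTerm (w : ℂ → ℕ) (n : ℕ) (ρ : ℂ) : ℝ := (w ρ : ℝ) * (1 - liRatio ρ ^ n).re

variable {w : ℂ → ℕ}

theorem norm_liRatio_le_one_iff {ρ : ℂ} (hρ : ρ ≠ 0) : ‖liRatio ρ‖ ≤ 1 ↔ 1 / 2 ≤ ρ.re := by
  rw [show liRatio ρ = (ρ - 1) / ρ by rw [liRatio]; field_simp, norm_div,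
    div_le_one (norm_pos_iff.2 hρ), ← sq_le_sq₀ (norm_nonneg _) (norm_nonneg _), Complex.sq_norm,
    Complex.sq_norm, normSq_apply, normSq_apply]
  simp only [sub_re, one_re, sub_im, one_im, sub_zero]
  constructor <;> intro h <;> nlinarith

theorem finite_support (hs : Summable fun ρ : ℂ => (w ρ : ℝ) * ((1 + |ρ.re|) / (1 + ‖ρ‖) ^ 2))
    (R : ℝ) : {ρ : ℂ | w ρ ≠ 0 ∧ ‖ρ‖ ≤ R}.Finite := by
  have h := hs.tendsto_cofinite_zero.eventually
    (eventually_lt_nhds (show (0 : ℝ) < 1 / (1 + |R|) ^ 2 by positivity))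
  rw [Filter.eventually_cofinite] at h
  refine h.subset fun ρ ⟨hw, hR⟩ => not_lt.2 ?_
  refine le_trans ?_ (le_mul_of_one_le_left (by positivity)
    (Nat.one_le_cast.2 (Nat.one_le_iff_ne_zero.2 hw)))
  exact div_le_div₀ (by positivity) (le_add_of_nonneg_right (abs_nonneg _)) (by positivity)
    (pow_le_pow_left₀ (by positivity) (by linarith [le_abs_self R]) 2)

/-- The majorant for large `n`. -/
def blMajorant (w : ℂ → ℕ) (ρ : ℂ) : ℝ := (w ρ : ℝ) * (|(ρ⁻¹).re| + ‖ρ⁻¹‖ ^ 2)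

theorem summable_majorant
    (hs : Summable fun ρ : ℂ => (w ρ : ℝ) * ((1 + |ρ.re|) / (1 + ‖ρ‖) ^ 2)) :
    Summable (blMajorant w) := by
  refine Summable.of_norm_bounded_eventually (hs.mul_left 4) ?_
  rw [Filter.eventually_cofinite]
  refine (finite_support hs 1).subset fun ρ hρ => ?_
  simp only [mem_ofPred_eq, blMajorant, Real.norm_eq_abs] at hρ ⊢
  by_cases hw : w ρ = 0
  · exact absurd (by simp [hw]) hρ
  refine ⟨hw, not_lt.1 fun hgt => hρ ?_⟩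
  rw [abs_of_nonneg (by positivity)]
  have hn : 0 < ‖ρ‖ := by linarith
  have e : |(ρ⁻¹).re| + ‖ρ⁻¹‖ ^ 2 = (|ρ.re| + 1) / ‖ρ‖ ^ 2 := by
    rw [inv_re, normSq_eq_norm_sq, abs_div, abs_of_nonneg (sq_nonneg ‖ρ‖), norm_inv, inv_pow,
      add_div, one_div]
  rw [e, ← mul_assoc, mul_comm 4, mul_assoc]
  refine mul_le_mul_of_nonneg_left ?_ (Nat.cast_nonneg _)
  rw [mul_div_assoc', div_le_div_iff₀ (by positivity) (by positivity)]
  nlinarith [mul_le_mul_of_nonneg_left (show (1 + ‖ρ‖) ^ 2 ≤ 4 * ‖ρ‖ ^ 2 by nlinarith)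
    (show 0 ≤ |ρ.re| + 1 by positivity)]

theorem abs_re_one_sub_pow_le {z : ℂ} {r : ℝ} (hr : 1 ≤ r) (hz : ‖z‖ ≤ r) (n : ℕ) :
    |(1 - z ^ n).re| ≤ ((n : ℝ) + 1) ^ 2 * r ^ n * (|(1 - z).re| + ‖1 - z‖ ^ 2) := by
  have hp : 1 ≤ r ^ n := one_le_pow₀ hr
  have hgeo : ∀ i ∈ Finset.range n, ‖z ^ i - 1‖ ≤ n * r ^ n * ‖1 - z‖ := fun i hi => by
    rw [norm_sub_rev, ← mul_neg_geom_sum, norm_mul, mul_comm]
    refine mul_le_mul_of_nonneg_right ((norm_sum_le _ _).trans ?_) (norm_nonneg _)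
    refine (Finset.sum_le_sum (g := fun _ => r ^ n) fun j hj => ?_).trans ?_
    · rw [norm_pow]
      exact (pow_le_pow_left₀ (norm_nonneg z) hz j).trans (pow_le_pow_right₀ hr
        ((Finset.mem_range.1 hj).le.trans (Finset.mem_range.1 hi).le))
    · rw [Finset.sum_const, Finset.card_range, nsmul_eq_mul]
      exact mul_le_mul_of_nonneg_right (Nat.cast_le.2 (Finset.mem_range.1 hi).le) (by linarith)
  obtain ⟨S, hS⟩ : ∃ S, S = ∑ i ∈ Finset.range n, (z ^ i - 1) := ⟨_, rfl⟩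
  have e : 1 - z ^ n = (1 - z) * n + (1 - z) * S := by
    rw [← mul_add, hS, Finset.sum_sub_distrib, Finset.sum_const, Finset.card_range, nsmul_one,
      add_sub_cancel, mul_neg_geom_sum]
  have hSn : ‖S‖ ≤ n * (n * r ^ n * ‖1 - z‖) := by
    rw [hS]
    exact (norm_sum_le_of_le _ hgeo).trans_eq
      (by rw [Finset.sum_const, Finset.card_range, nsmul_eq_mul])
  have h1 : |((1 - z) * S).re| ≤ (n : ℝ) ^ 2 * r ^ n * ‖1 - z‖ ^ 2 :=
    ((Complex.abs_re_le_norm _).trans_eq (norm_mul _ _)).trans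
      ((mul_le_mul_of_nonneg_left hSn (norm_nonneg _)).trans_eq (by ring))
  rw [e, add_re, ← ofReal_natCast, re_mul_ofReal]
  refine (abs_add_le _ _).trans ?_
  rw [abs_mul, Nat.abs_cast, mul_add]
  refine add_le_add ?_ (h1.trans ?_)
  · rw [mul_comm]
    refine mul_le_mul_of_nonneg_right ?_ (abs_nonneg _)
    nlinarith [Nat.cast_nonneg (α := ℝ) n, sq_nonneg ((n : ℝ)), mul_le_mul_of_nonneg_left hp
      (sq_nonneg ((n : ℝ) + 1))]
  · gcongr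
    linarith

theorem abs_blTerm_le {ρ : ℂ} {r : ℝ} (hr : 1 ≤ r) (hz : ‖liRatio ρ‖ ≤ r) (n : ℕ) :
    |blTerm w n ρ| ≤ ((n : ℝ) + 1) ^ 2 * r ^ n * blMajorant w ρ := by
  rw [blTerm, abs_mul, Nat.abs_cast, blMajorant, ← mul_assoc, mul_comm _ (w ρ : ℝ), mul_assoc]
  refine mul_le_mul_of_nonneg_left ((abs_re_one_sub_pow_le hr hz n).trans_eq ?_) (Nat.cast_nonneg _)
  rw [liRatio, sub_sub_cancel]

/-- **The sums converge absolutely.** -/
theorem summable_abs_blTerm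
    (hs : Summable fun ρ : ℂ => (w ρ : ℝ) * ((1 + |ρ.re|) / (1 + ‖ρ‖) ^ 2)) (n : ℕ) :
    Summable fun ρ => |blTerm w n ρ| := by
  refine Summable.of_norm_bounded_eventually
    ((summable_majorant hs).mul_left (((n : ℝ) + 1) ^ 2 * 2 ^ n)) ?_
  rw [Filter.eventually_cofinite]
  refine (finite_support hs 1).subset fun ρ hρ => ?_
  simp only [mem_ofPred_eq, Real.norm_eq_abs, abs_abs] at hρ ⊢
  by_cases hw : w ρ = 0
  · exact absurd (by simp [blTerm, blMajorant, hw]) hρ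
  refine ⟨hw, not_lt.1 fun hgt => hρ (abs_blTerm_le one_le_two ?_ n)⟩
  rw [liRatio]
  refine (norm_sub_le _ _).trans ?_
  rw [norm_one, norm_inv]
  linarith [inv_le_one_of_one_le₀ hgt.le]

theorem blTerm_nonneg (h0 : w 0 = 0) (hre : ∀ ρ, w ρ ≠ 0 → 1 / 2 ≤ ρ.re) (n : ℕ) (ρ : ℂ) :
    0 ≤ blTerm w n ρ := by
  by_cases hw : w ρ = 0
  · simp [blTerm, hw]
  have hρ : ρ ≠ 0 := fun e => hw (e ▸ h0)
  refine mul_nonneg (Nat.cast_nonneg _) ?_
  rw [sub_re, one_re, sub_nonneg]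
  refine (Complex.re_le_norm _).trans ?_
  rw [norm_pow]
  exact pow_le_one₀ (norm_nonneg _) ((norm_liRatio_le_one_iff hρ).2 (hre ρ hw))

/-- Powers of finitely many points of the unit circle return near `1` at arbitrarily large
exponents. -/
theorem exists_pow_near_one {ι : Type*} [Fintype ι] (u : ι → ℂ) (hu : ∀ i, ‖u i‖ = 1) (N : ℕ) :
    ∃ n, N ≤ n ∧ ∀ i, 1 / 2 ≤ (u i ^ n).re := by
  obtain ⟨a, -, φ, hφ, hlim⟩ := IsCompact.tendsto_subseq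
    (isCompact_closedBall (0 : ι → ℂ) 1) (x := fun k i => u i ^ k) fun k => by
      rw [mem_closedBall_zero_iff, pi_norm_le_iff_of_nonneg zero_le_one]
      intro i
      rw [norm_pow, hu i, one_pow]
  obtain ⟨M, hM⟩ := Metric.cauchySeq_iff.1 hlim.cauchySeq (1 / 2) (by norm_num)
  obtain ⟨j, hj⟩ : ∃ j, j = max M (φ M + N) := ⟨_, rfl⟩
  have hj1 : M ≤ j := hj ▸ le_max_left _ _
  have hge : φ M + N ≤ φ j := (hj ▸ le_max_right _ _ : φ M + N ≤ j).trans (hφ.id_le j)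
  refine ⟨φ j - φ M, by omega, fun i => ?_⟩
  have h := hM j hj1 M le_rfl
  rw [dist_eq_norm, pi_norm_lt_iff (by norm_num)] at h
  have h1 := h i
  simp only [Pi.sub_apply, Function.comp_apply] at h1
  rw [show u i ^ φ j - u i ^ φ M = u i ^ φ M * (u i ^ (φ j - φ M) - 1) by
    rw [mul_sub, mul_one, ← pow_add]; congr 2; omega, norm_mul, norm_pow, hu i, one_pow,
    one_mul] at h1
  have h2 := (abs_le.1 ((Complex.abs_re_le_norm _).trans h1.le)).1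
  rw [sub_re, one_re] at h2
  linarith

/-- **A point with `re ρ < 1/2` makes some sum negative.** -/
theorem exists_negative (hs : Summable fun ρ : ℂ => (w ρ : ℝ) * ((1 + |ρ.re|) / (1 + ‖ρ‖) ^ 2))
    (h0 : w 0 = 0) {ρ₀ : ℂ} (hw : w ρ₀ ≠ 0) (hre : ρ₀.re < 1 / 2) :
    ∃ n : ℕ, 1 ≤ n ∧ ∑' ρ, blTerm w n ρ < 0 := by
  classical
  have hρ₀ : ρ₀ ≠ 0 := fun e => hw (e ▸ h0)
  obtain ⟨c, hc⟩ : ∃ c, c = (1 + ‖liRatio ρ₀‖) / 2 := ⟨_, rfl⟩
  have hR₀ : 1 < ‖liRatio ρ₀‖ :=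
    not_le.1 fun h => absurd ((norm_liRatio_le_one_iff hρ₀).1 h) (not_le.2 hre)
  have hc1 : 1 < c := by rw [hc]; linarith
  have hcR : c < ‖liRatio ρ₀‖ := by rw [hc]; linarith
  obtain ⟨T, hT⟩ : ∃ T : Finset ℂ, ∀ ρ, ρ ∈ T ↔ w ρ ≠ 0 ∧ c < ‖liRatio ρ‖ := by
    have hfin : {ρ : ℂ | w ρ ≠ 0 ∧ c < ‖liRatio ρ‖}.Finite := by
      refine (finite_support hs (1 / (c - 1))).subset fun ρ ⟨h1, h2⟩ => ⟨h1, ?_⟩
      have h3 : ρ ≠ 0 := fun e => h1 (e ▸ h0)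
      have h4 := h2.trans_le (norm_sub_le (1 : ℂ) ρ⁻¹)
      rw [norm_one, norm_inv] at h4
      rw [le_div_iff₀ (by linarith)]
      have h5 := mul_le_mul_of_nonneg_left (show c - 1 ≤ ‖ρ‖⁻¹ by linarith) (norm_nonneg ρ)
      rwa [mul_inv_cancel₀ (norm_ne_zero_iff.2 h3)] at h5
    exact ⟨hfin.toFinset, fun ρ => hfin.mem_toFinset⟩
  obtain ⟨ρ₁, hρ₁, hmax⟩ := T.exists_max_image (fun ρ => ‖liRatio ρ‖) ⟨ρ₀, (hT ρ₀).2 ⟨hw, hcR⟩⟩
  obtain ⟨R, hR⟩ : ∃ R, R = ‖liRatio ρ₁‖ := ⟨_, rfl⟩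
  rw [← hR] at hmax
  have hcR' : c < R := hR ▸ ((hT ρ₁).1 hρ₁).2
  have hR0 : 0 < R := by linarith
  obtain ⟨P, hP⟩ : ∃ P, P = T.filter fun ρ => ‖liRatio ρ‖ = R := ⟨_, rfl⟩
  obtain ⟨r, hr1, hrR, hr⟩ : ∃ r, 1 ≤ r ∧ r < R ∧ ∀ ρ, w ρ ≠ 0 → ρ ∉ P → ‖liRatio ρ‖ ≤ r := by
    obtain ⟨V, hV⟩ : ∃ V, V = insert c ((T \ P).image fun ρ => ‖liRatio ρ‖) := ⟨_, rfl⟩
    have hne : V.Nonempty := hV ▸ Finset.insert_nonempty _ _
    refine ⟨V.max' hne, le_trans hc1.le (Finset.le_max' _ _ (hV ▸ Finset.mem_insert_self _ _)), ?_,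
      fun ρ h1 h2 => ?_⟩
    · rw [Finset.max'_lt_iff]
      intro y hy
      rw [hV, Finset.mem_insert, Finset.mem_image] at hy
      rcases hy with rfl | ⟨ρ, hρ, rfl⟩
      · exact hcR'
      · obtain ⟨h1, h2⟩ := Finset.mem_sdiff.1 hρ
        refine lt_of_le_of_ne (hmax ρ h1) fun e => h2 ?_
        rw [hP, Finset.mem_filter]
        exact ⟨h1, e⟩
    · rcases le_or_gt ‖liRatio ρ‖ c with h3 | h3
      · exact h3.trans (Finset.le_max' _ _ (hV ▸ Finset.mem_insert_self _ _))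
      · exact Finset.le_max' _ _ (hV ▸ Finset.mem_insert_of_mem (Finset.mem_image.2
          ⟨ρ, Finset.mem_sdiff.2 ⟨(hT ρ).2 ⟨h1, h3⟩, h2⟩, rfl⟩))
  obtain ⟨W, hW⟩ : ∃ W : ℝ, W = ∑ ρ ∈ P, (w ρ : ℝ) := ⟨_, rfl⟩
  have hW1 : 1 ≤ W := by
    refine le_trans (Nat.one_le_cast.2 (Nat.one_le_iff_ne_zero.2 ((hT ρ₁).1 hρ₁).1))
      ((Finset.single_le_sum (f := fun ρ => (w ρ : ℝ)) (fun ρ _ => Nat.cast_nonneg _) ?_).trans_eq
        hW.symm)
    rw [hP, Finset.mem_filter]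
    exact ⟨hρ₁, hR.symm⟩
  obtain ⟨A, hA⟩ : ∃ A, A = ∑' ρ, blMajorant w ρ := ⟨_, rfl⟩
  have hA0 : 0 ≤ A := hA ▸ tsum_nonneg fun ρ => mul_nonneg (Nat.cast_nonneg _) (by positivity)
  have hlim : Tendsto (fun n : ℕ => ((n : ℝ) + 1) ^ 2 * (r / R) ^ n * A + W * (1 / R) ^ n)
      atTop (𝓝 0) := by
    have hq : ‖r / R‖ < 1 := by
      rw [Real.norm_of_nonneg (by positivity), div_lt_one hR0]
      exact hrR
    have h2 := tendsto_pow_const_mul_const_pow_of_abs_lt_one 2 (r := r / R)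
      (by rwa [← Real.norm_eq_abs])
    have h1 := tendsto_pow_const_mul_const_pow_of_abs_lt_one 1 (r := r / R)
      (by rwa [← Real.norm_eq_abs])
    have h0 := tendsto_pow_atTop_nhds_zero_of_lt_one (show 0 ≤ r / R by positivity)
      ((div_lt_one hR0).2 hrR)
    have h3 := (tendsto_pow_atTop_nhds_zero_of_lt_one (show 0 ≤ 1 / R by positivity)
      ((div_lt_one hR0).2 (by linarith))).const_mul W
    have h4 := (((h2.add (h1.const_mul 2)).add h0).mul_const A).add h3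
    simp only [mul_zero, add_zero, zero_mul] at h4
    refine h4.congr fun n => ?_
    ring
  obtain ⟨N, hN⟩ := eventually_atTop.1 (hlim.eventually (eventually_lt_nhds
    (show (0 : ℝ) < W / 2 by linarith)))
  have hPR : ∀ ρ ∈ P, ‖liRatio ρ‖ = R := fun ρ h => by
    rw [hP, Finset.mem_filter] at h
    exact h.2
  obtain ⟨n, hn, hre'⟩ := exists_pow_near_one (ι := {ρ // ρ ∈ P})
    (fun ρ => liRatio ρ / (R : ℂ)) (fun ρ => by
      rw [norm_div, hPR _ ρ.2, Complex.norm_real, Real.norm_of_nonneg hR0.le, div_self hR0.ne'])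
    (max N 1)
  refine ⟨n, (le_max_right _ _).trans hn, ?_⟩
  have hsum := (summable_abs_blTerm hs n).of_abs
  rw [← hsum.sum_add_tsum_subtype_compl P]
  have hPs : ∑ ρ ∈ P, blTerm w n ρ ≤ W * (1 - R ^ n / 2) := by
    rw [hW, Finset.sum_mul]
    refine Finset.sum_le_sum fun ρ hρ => ?_
    refine mul_le_mul_of_nonneg_left ?_ (Nat.cast_nonneg _)
    have h1 := hre' ⟨ρ, hρ⟩
    rw [div_pow, ← ofReal_pow, Complex.div_ofReal_re, le_div_iff₀ (pow_pos hR0 n)] at h1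
    rw [sub_re, one_re]
    linarith
  have hrest : ∑' ρ : {ρ // ρ ∉ P}, blTerm w n ρ ≤ ((n : ℝ) + 1) ^ 2 * r ^ n * A := by
    have hm := (summable_majorant hs).mul_left (((n : ℝ) + 1) ^ 2 * r ^ n)
    refine ((hsum.subtype _).tsum_le_tsum (g := fun ρ : {ρ // ρ ∉ P} =>
      ((n : ℝ) + 1) ^ 2 * r ^ n * blMajorant w ρ) (fun ρ => ?_) (hm.subtype _)).trans ?_
    · by_cases h1 : w ρ = 0
      · simp [blTerm, blMajorant, h1]
      · exact (le_abs_self _).trans (abs_blTerm_le hr1 (hr ρ h1 ρ.2) n)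
    · rw [hA, ← tsum_mul_left]
      exact Summable.tsum_subtype_le _ {ρ | ρ ∉ P} (fun ρ => mul_nonneg (by positivity)
        (mul_nonneg (Nat.cast_nonneg _) (by positivity))) hm
  have hfin := mul_lt_mul_of_pos_right (hN n ((le_max_left _ _).trans hn)) (pow_pos hR0 n)
  rw [add_mul, div_pow, div_pow, one_pow] at hfin
  have e1 : ((n : ℝ) + 1) ^ 2 * (r ^ n / R ^ n) * A * R ^ n =
      ((n : ℝ) + 1) ^ 2 * r ^ n * A := by field_simp
  have e2 : W * (1 / R ^ n) * R ^ n = W := by field_simp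
  rw [e1, e2] at hfin
  linarith

/-- **Bombieri and Lagarias.** -/
theorem re_ge_half_iff (hs : Summable fun ρ : ℂ => (w ρ : ℝ) * ((1 + |ρ.re|) / (1 + ‖ρ‖) ^ 2))
    (h0 : w 0 = 0) :
    (∀ ρ, w ρ ≠ 0 → 1 / 2 ≤ ρ.re) ↔ ∀ n : ℕ, 1 ≤ n → 0 ≤ ∑' ρ, blTerm w n ρ := by
  refine ⟨fun h n _ => tsum_nonneg (blTerm_nonneg h0 h n), fun h ρ hw => not_lt.1 fun hlt => ?_⟩
  obtain ⟨n, hn, hneg⟩ := exists_negative hs h0 hw hlt
  exact absurd (h n hn) (not_le.2 hneg)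

end FA.BombieriLagarias

end
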