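import Fermat.Agent.SelbergHadamard.SelfDual
import Fermat.Agent.SelbergHadamard.BombieriLagarias

/-!
# Criteria for the zeros to lie on the line

Positivity of `re (X'/X)`, monotonicity of `|X|`, and the sums of Bombieri and Lagarias.
-/

set_option autoImplicit false

noncomputable section

open Complex Filter Topology Set
open scoped Real ComplexConjugate
open FA.DedekindHadamard (fMult)
open FA.BombieriLagarias (blTerm)

namespace FA.SelbergHadamard

/-- All zeros have `re = 1/2`. -/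
def ZerosOnLine (X : ℂ → ℂ) : Prop := ∀ ρ, X ρ = 0 → ρ.re = 1 / 2

/-- `|X|` increases to the right of `c`. -/
def NormIncreasingFrom (X : ℂ → ℂ) (c : ℝ) : Prop :=
  ∀ t : ℝ, StrictMonoOn (fun σ : ℝ => ‖X ((σ : ℂ) + t * I)‖) (Ici c)

/-- `∑ m re (1 - (1 - 1/ρ) ^ n)` over the zeros. -/
def liSum (X : ℂ → ℂ) (n : ℕ) : ℝ := ∑' ρ : ℂ, blTerm (fMult X) n ρ

theorem strictMonoOn_norm {X : ℂ → ℂ} (hd : Differentiable ℂ X) {c t : ℝ}
    (h : ∀ σ : ℝ, c < σ → 0 < (logDeriv X ((σ : ℂ) + t * I)).re) :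
    StrictMonoOn (fun σ : ℝ => ‖X ((σ : ℂ) + t * I)‖) (Ici c) := by
  have hd' : ∀ σ : ℝ, HasDerivAt (fun σ : ℝ => X ((σ : ℂ) + t * I))
      (deriv X ((σ : ℂ) + t * I)) σ := fun σ => by
    have hin : HasDerivAt (fun σ : ℂ => σ + t * I) 1 σ := (hasDerivAt_id' _).add_const _
    simpa using ((hd _).hasDerivAt.comp (σ : ℂ) hin).comp_ofReal
  have hgd : ∀ σ : ℝ, HasDerivAt (fun σ : ℝ => ‖X ((σ : ℂ) + t * I)‖ ^ 2)
      (2 * (deriv X ((σ : ℂ) + t * I) * conj (X ((σ : ℂ) + t * I))).re) σ := fun σ =>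
    (hd' σ).norm_sq.congr_deriv (by rw [Complex.inner])
  have hmono : StrictMonoOn (fun σ : ℝ => ‖X ((σ : ℂ) + t * I)‖ ^ 2) (Ici c) := by
    refine strictMonoOn_of_hasDerivWithinAt_pos (convex_Ici _)
      (fun σ _ => (hgd σ).continuousAt.continuousWithinAt)
      (fun σ _ => (hgd σ).hasDerivWithinAt) fun σ hσ => ?_
    rw [interior_Ici] at hσ
    have hp := h σ hσ
    rw [logDeriv_apply, div_re, ← add_div] at hp
    have hden : 0 < normSq (X ((σ : ℂ) + t * I)) :=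
      normSq_pos.2 fun e => by rw [e] at hp; simp at hp
    have := mul_pos hp hden
    rw [div_mul_cancel₀ _ hden.ne'] at this
    simp only [mul_re, conj_re, conj_im]
    linarith
  exact fun x hx y hy hxy => lt_of_pow_lt_pow_left₀ 2 (norm_nonneg _) (hmono hx hy hxy)

namespace IsSelfDual

variable {X : ℂ → ℂ} (h : IsSelfDual X)

include h

theorem exists_zero_left (hz : ∃ ρ, X ρ = 0) : ∃ ρ, X ρ = 0 ∧ ρ.re ≤ 1 / 2 := by
  obtain ⟨ρ, hρ⟩ := hz
  rcases le_total ρ.re (1 / 2) with hle | hle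
  · exact ⟨ρ, hρ, hle⟩
  · exact ⟨1 - conj ρ, (h.eq_zero_mirror_iff ρ).2 hρ, by simp; linarith⟩

/-- If no zero is to the right, one strictly to the left makes `re (X'/X)` positive. -/
theorem re_pos_of_left {s : ℂ} (hs : X s ≠ 0) (hle : ∀ ρ, X ρ = 0 → ρ.re ≤ s.re)
    (hlt : ∃ ρ, X ρ = 0 ∧ ρ.re < s.re) : 0 < (logDeriv X s).re := by
  have hnn : ∀ ρ, 0 ≤ reTerm X s ρ := fun ρ => by
    rw [reTerm, inv_re]
    by_cases hm : fMult X ρ = 0
    · simp [hm]
    · refine mul_nonneg (Nat.cast_nonneg _) (div_nonneg ?_ (normSq_nonneg _))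
      rw [sub_re]
      linarith [hle ρ (h.mult_ne_zero_iff.1 hm)]
  obtain ⟨ρ₀, hρ₀, hlt₀⟩ := hlt
  have hpos : 0 < reTerm X s ρ₀ := by
    rw [reTerm, inv_re]
    refine mul_pos (Nat.cast_pos.2 (Nat.pos_of_ne_zero (h.mult_ne_zero_iff.2 hρ₀)))
      (div_pos (by rw [sub_re]; linarith) (normSq_pos.2 ?_))
    exact sub_ne_zero.2 fun e => hs (e ▸ hρ₀)
  exact hpos.trans_le (le_hasSum (h.hasSum_reTerm hs) ρ₀ fun ρ _ => hnn ρ)

/-- **`re (X'/X) > 0` on `re s ≥ 1`, unconditionally.** -/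
theorem re_pos_of_one_le (hz : ∃ ρ, X ρ = 0) {s : ℂ} (hs : 1 ≤ s.re) (hne : X s ≠ 0) :
    0 < (logDeriv X s).re := by
  obtain ⟨ρ, hρ, hle⟩ := h.exists_zero_left hz
  exact h.re_pos_of_left hne (fun z hz' => (h.zero_strip hz').2.trans hs) ⟨ρ, hρ, by linarith⟩

theorem re_pos_of_line (hz : ∃ ρ, X ρ = 0) (hG : ZerosOnLine X) {s : ℂ} (hs : 1 / 2 < s.re) :
    0 < (logDeriv X s).re := by
  obtain ⟨ρ, hρ⟩ := hz
  exact h.re_pos_of_left (fun e => hs.ne' (hG s e)) (fun z hz' => (hG z hz').trans_le hs.le)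
    ⟨ρ, hρ, (hG ρ hρ).trans_lt hs⟩

/-- **Positivity is equivalent to all zeros on the line.** -/
theorem zerosOnLine_iff_pos (hz : ∃ ρ, X ρ = 0) :
    ZerosOnLine X ↔ ∀ s : ℂ, 1 / 2 < s.re → 0 < (logDeriv X s).re := by
  refine ⟨fun hG s hs => h.re_pos_of_line hz hG hs, fun hp ρ hρ => ?_⟩
  have key : ∀ z, X z = 0 → z.re ≤ 1 / 2 := fun z hz' => not_lt.1 fun hlt => by
    have h1 := hp z hlt
    rw [logDeriv_apply, hz', div_zero, zero_re] at h1
    exact lt_irrefl _ h1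
  have h2 := key _ ((h.eq_zero_mirror_iff ρ).2 hρ)
  rw [sub_re, one_re, conj_re] at h2
  linarith [key ρ hρ]

/-- **Monotonicity is equivalent to all zeros on the line.** -/
theorem zerosOnLine_iff_increasing (hz : ∃ ρ, X ρ = 0) :
    ZerosOnLine X ↔ NormIncreasingFrom X (1 / 2) := by
  refine ⟨fun hG t => strictMonoOn_norm h.differentiable fun σ hσ =>
    h.re_pos_of_line hz hG (by simpa using hσ), fun hm ρ hρ => ?_⟩
  have key : ∀ z, X z = 0 → z.re ≤ 1 / 2 := fun z hz' => not_lt.1 fun hlt => by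
    have h1 := hm z.im (self_mem_Ici (a := (1 / 2 : ℝ))) (mem_Ici.2 hlt.le) hlt
    simp only [re_add_im, hz', norm_zero] at h1
    exact absurd h1 (not_lt.2 (norm_nonneg _))
  have h2 := key _ ((h.eq_zero_mirror_iff ρ).2 hρ)
  rw [sub_re, one_re, conj_re] at h2
  linarith [key ρ hρ]

theorem normIncreasing_one (hz : ∃ ρ, X ρ = 0) : NormIncreasingFrom X 1 := fun _ =>
  strictMonoOn_norm h.differentiable fun σ hσ =>
    h.re_pos_of_one_le hz (by simpa using hσ.le) (h.ne_zero _ (by simpa using hσ))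

/-- **The zeros of `X'` lie in the closed strip.** -/
theorem deriv_zero_strip (hz : ∃ ρ, X ρ = 0) {s : ℂ} (hs : deriv X s = 0) :
    0 ≤ s.re ∧ s.re ≤ 1 := by
  have key : ∀ z, 1 < z.re → (logDeriv X z).re ≠ 0 := fun z hz' =>
    (h.re_pos_of_one_le hz hz'.le (h.ne_zero z hz')).ne'
  have h0 : (logDeriv X s).re = 0 := by rw [logDeriv_apply, hs, zero_div, zero_re]
  constructor <;> by_contra hc
  · refine key (1 - conj s) (by simp; linarith) ?_
    rw [h.logDeriv_mirror, neg_re, conj_re, h0, neg_zero]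
  · exact key s (not_le.1 hc) h0

/-- **They are on the line when the zeros of `X` are.** -/
theorem deriv_zero_line (hz : ∃ ρ, X ρ = 0) (hG : ZerosOnLine X) {s : ℂ} (hs : deriv X s = 0) :
    s.re = 1 / 2 := by
  have h0 : (logDeriv X s).re = 0 := by rw [logDeriv_apply, hs, zero_div, zero_re]
  rcases lt_trichotomy s.re (1 / 2) with hc | hc | hc
  · have h1 := h.re_pos_of_line hz hG (s := 1 - conj s) (by simp; linarith)
    rw [h.logDeriv_mirror, neg_re, conj_re, h0, neg_zero] at h1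
    exact absurd h1 (lt_irrefl _)
  · exact hc
  · exact absurd h0 (h.re_pos_of_line hz hG hc).ne'

theorem summable_li (n : ℕ) : Summable fun ρ => |blTerm (fMult X) n ρ| :=
  FA.BombieriLagarias.summable_abs_blTerm h.summable_weight n

/-- **Li's criterion.** -/
theorem zerosOnLine_iff_li (h0 : X 0 ≠ 0) :
    ZerosOnLine X ↔ ∀ n : ℕ, 1 ≤ n → 0 ≤ liSum X n := by
  refine Iff.trans ?_ (FA.BombieriLagarias.re_ge_half_iff h.summable_weight
    (FA.DedekindHadamard.fMult_eq_zero h0))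
  refine ⟨fun hG ρ hρ => (hG ρ (h.mult_ne_zero_iff.1 hρ)).ge, fun hge ρ hρ => ?_⟩
  have h1 := hge ρ (h.mult_ne_zero_iff.2 hρ)
  have h2 := hge (1 - conj ρ) (h.mult_ne_zero_iff.2 ((h.eq_zero_mirror_iff ρ).2 hρ))
  rw [sub_re, one_re, conj_re] at h2
  linarith

theorem one_ne_of_zero_ne (h0 : X 0 ≠ 0) : X 1 ≠ 0 := fun e => h0 (by
  simpa using (h.eq_zero_mirror_iff 1).2 e)

/-- **The first sum is `re (X'/X) 1`.** -/
theorem liSum_one (h0 : X 0 ≠ 0) : liSum X 1 = (logDeriv X 1).re := by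
  refine ((mirror.hasSum_iff.2 (h.hasSum_reTerm (h.one_ne_of_zero_ne h0))).congr_fun
    fun ρ => ?_).tsum_eq
  rw [blTerm, FA.BombieriLagarias.liRatio, pow_one, sub_sub_cancel, Function.comp_apply, reTerm,
    mirror_apply, h.mult_mirror, sub_sub_cancel, ← map_inv₀, conj_re]

theorem liSum_one_pos (hz : ∃ ρ, X ρ = 0) (h0 : X 0 ≠ 0) : 0 < liSum X 1 := by
  rw [h.liSum_one h0]
  exact h.re_pos_of_one_le hz one_re.ge (h.one_ne_of_zero_ne h0)

end IsSelfDual

end FA.SelbergHadamard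

end
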