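import Fermat.Agent.SelbergZeroCount.Horizontal
import Fermat.Agent.SelbergMultiplicity.Reflection
import Fermat.Agent.HeckeBS.GammaBounds
import Fermat.Agent.DegreeGap.Gamma

/-!
# The completed function of an element of the Selberg class

`(s (s - 1)) ^ m γ s L s`, with `γ` the Gamma factor, continues to an entire function of order one
that is its own reflection.
-/

set_option autoImplicit false

noncomputable section

open Complex Filter Topology Set
open scoped Real ComplexConjugate
open FA.DegreeGap (HasFunctionalEquation gammaFactor)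
open FA.DegreeOne (reflRatio conj_inv_eq)
open FA.SelbergClass (HasEulerProduct)
open FA.SelbergZeroCount (lSeries_ne_zero exists_strip_bound)

namespace FA.SelbergHadamard

variable {a : ℕ → ℂ} {m : ℕ} {E : ℂ → ℂ} {r : ℕ} {lam : Fin r → ℝ} {mu : Fin r → ℂ} {Q : ℝ}
  {omega : ℂ}

/-- `s ^ m γ s E s`, that is `(s (s - 1)) ^ m γ s L s`. -/
def xiRight (m : ℕ) (E : ℂ → ℂ) (lam : Fin r → ℝ) (mu : Fin r → ℂ) (Q : ℝ) (s : ℂ) : ℂ :=
  s ^ m * gammaFactor lam mu Q s * E s

/-- The completed function; to the left of `0` it is given by the reflection. -/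
def xiF (m : ℕ) (E : ℂ → ℂ) (lam : Fin r → ℝ) (mu : Fin r → ℂ) (Q : ℝ) (omega s : ℂ) : ℂ :=
  if 0 < s.re then xiRight m E lam mu Q s else omega * conj (xiRight m E lam mu Q (1 - conj s))

theorem gammaArg_re_pos (h : HasFunctionalEquation a m E lam mu Q omega) {s : ℂ} (hs : 0 < s.re)
    (j : Fin r) : 0 < ((lam j : ℂ) * s + mu j).re := by
  rw [add_re, re_ofReal_mul]
  linarith [mul_pos (h.lam_pos j) hs, h.mu_re j]

theorem gammaFactor_ne_zero (h : HasFunctionalEquation a m E lam mu Q omega) {s : ℂ}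
    (hs : 0 < s.re) : gammaFactor lam mu Q s ≠ 0 :=
  mul_ne_zero (cpow_ne_zero_iff.2 (Or.inl (ofReal_ne_zero.2 h.Q_pos.ne')))
    (Finset.prod_ne_zero_iff.2 fun j _ =>
      Complex.Gamma_ne_zero_of_re_pos (gammaArg_re_pos h hs j))

theorem differentiableAt_xiRight (h : HasFunctionalEquation a m E lam mu Q omega) {s : ℂ}
    (hs : ∀ (j : Fin r) (n : ℕ), (lam j : ℂ) * s + mu j ≠ -(n : ℂ)) :
    DifferentiableAt ℂ (xiRight m E lam mu Q) s := by
  unfold xiRight FA.DegreeGap.gammaFactor
  refine ((differentiableAt_id.pow m).mul ((differentiableAt_id.const_cpow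
    (Or.inl (ofReal_ne_zero.2 h.Q_pos.ne'))).mul (DifferentiableAt.fun_finsetProd fun j _ => ?_))
    ).mul (h.differentiable s)
  exact (Complex.differentiableAt_Gamma _ (hs j)).fun_comp' s
    ((differentiableAt_id.const_mul _).add_const _)

theorem no_pole_of_re_pos (h : HasFunctionalEquation a m E lam mu Q omega) {s : ℂ}
    (hs : 0 < s.re) (j : Fin r) (n : ℕ) : (lam j : ℂ) * s + mu j ≠ -(n : ℂ) := fun e => by
  have h1 := gammaArg_re_pos h hs j
  rw [e, Complex.neg_re, Complex.natCast_re] at h1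
  linarith [Nat.cast_nonneg (α := ℝ) n]

/-- On the critical strip the two definitions agree. -/
theorem xiRight_reflect (h : HasFunctionalEquation a m E lam mu Q omega) {s : ℂ} (h0 : 0 < s.re)
    (h1 : s.re < 1) :
    xiRight m E lam mu Q s = omega * conj (xiRight m E lam mu Q (1 - conj s)) := by
  have hr := FA.SelbergMultiplicity.reflect h h1
  rw [← conj_inv_eq h.Q_pos] at hr
  have hg := gammaFactor_ne_zero h h0
  have hsq : ((-1 : ℂ) ^ m) * (-1) ^ m = 1 := by rw [← mul_pow]; simp
  have h3 := congrArg (fun z : ℂ => (-1 : ℂ) ^ m * gammaFactor lam mu Q s * z) hr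
  simp only [neg_pow s, show (s - 1) ^ m = (-1 : ℂ) ^ m * (1 - s) ^ m by
    rw [← mul_pow, neg_one_mul, neg_sub]] at h3
  simp only [xiRight, map_mul, map_pow, map_sub, map_one, Complex.conj_conj]
  linear_combination h3 +
    (-(s ^ m * gammaFactor lam mu Q s * E s) +
      (1 - s) ^ m * omega * conj (gammaFactor lam mu Q (1 - conj s)) * conj (E (1 - conj s))) *
        hsq +
    ((-1 : ℂ) ^ m * (-1) ^ m * (1 - s) ^ m * omega *
      conj (gammaFactor lam mu Q (1 - conj s)) * conj (E (1 - conj s))) * (mul_inv_cancel₀ hg)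

theorem xiF_eq_right {s : ℂ} (hs : 0 < s.re) :
    xiF m E lam mu Q omega s = xiRight m E lam mu Q s := if_pos hs

theorem xiF_eq_left (h : HasFunctionalEquation a m E lam mu Q omega) {s : ℂ} (hs : s.re < 1) :
    xiF m E lam mu Q omega s = omega * conj (xiRight m E lam mu Q (1 - conj s)) := by
  rw [xiF]
  split_ifs with h0
  · exact xiRight_reflect h h0 hs
  · rfl

theorem differentiable_xiF (h : HasFunctionalEquation a m E lam mu Q omega) :
    Differentiable ℂ (xiF m E lam mu Q omega) := fun s => by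
  rcases lt_or_ge 0 s.re with hs | hs
  · refine (differentiableAt_xiRight h (no_pole_of_re_pos h hs)).congr_of_eventuallyEq ?_
    filter_upwards [(isOpen_lt continuous_const Complex.continuous_re).mem_nhds hs] with z hz
    exact xiF_eq_right hz
  · have h1 : 0 < (1 - conj s).re := by simp; linarith
    have h2 : DifferentiableAt ℂ (fun z => xiRight m E lam mu Q (1 - z)) (conj s) :=
      (differentiableAt_xiRight h (no_pole_of_re_pos h h1)).fun_comp' (conj s)
        (differentiableAt_id.const_sub _)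
    have h3 := h2.conj_conj
    rw [Complex.conj_conj] at h3
    refine (h3.const_mul omega).congr_of_eventuallyEq ?_
    filter_upwards [(isOpen_lt Complex.continuous_re continuous_const).mem_nhds
      (show s.re < 1 by linarith)] with z hz
    exact xiF_eq_left h hz

theorem omega_mul_conj (h : HasFunctionalEquation a m E lam mu Q omega) :
    omega * conj omega = 1 := by
  rw [Complex.mul_conj, Complex.normSq_eq_norm_sq, h.norm_omega, one_pow, ofReal_one]

/-- **The functional equation everywhere.** -/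
theorem xiF_reflect (h : HasFunctionalEquation a m E lam mu Q omega) (s : ℂ) :
    xiF m E lam mu Q omega s = omega * conj (xiF m E lam mu Q omega (1 - conj s)) := by
  rcases lt_or_ge s.re 1 with hs | hs
  · rw [xiF_eq_left h hs, xiF_eq_right (s := 1 - conj s) (by simp; linarith)]
  · rw [xiF_eq_right (by linarith), xiF_eq_left h (s := 1 - conj s) (by simp; linarith)]
    simp only [map_sub, map_one, map_mul, Complex.conj_conj, sub_sub_cancel, ← mul_assoc,
      omega_mul_conj h, one_mul]

theorem xiF_eq_series (h : HasFunctionalEquation a m E lam mu Q omega) {s : ℂ} (hs : 1 < s.re) :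
    xiF m E lam mu Q omega s = (s * (s - 1)) ^ m * gammaFactor lam mu Q s * LSeries a s := by
  rw [xiF_eq_right (by linarith), xiRight, h.eq_series s hs, mul_pow]
  ring

theorem xiF_ne_zero (h : HasFunctionalEquation a m E lam mu Q omega) (he : HasEulerProduct a)
    {s : ℂ} (hs : 1 < s.re) : xiF m E lam mu Q omega s ≠ 0 := by
  rw [xiF_eq_series h hs]
  refine mul_ne_zero (mul_ne_zero (pow_ne_zero _ (mul_ne_zero (fun e => ?_) (fun e => ?_)))
    (gammaFactor_ne_zero h (by linarith))) (lSeries_ne_zero he hs (h.summable s hs))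
  · rw [e, zero_re] at hs; linarith
  · rw [sub_eq_zero.1 e, one_re] at hs; linarith

theorem xiF_eq_zero_iff (h : HasFunctionalEquation a m E lam mu Q omega) {s : ℂ}
    (hs : 0 < s.re) : xiF m E lam mu Q omega s = 0 ↔ E s = 0 := by
  rw [xiF_eq_right hs, xiRight, mul_eq_zero, mul_eq_zero, or_iff_right]
  rintro (e | e)
  · rw [eq_zero_of_pow_eq_zero e, zero_re] at hs
    exact lt_irrefl _ hs
  · exact gammaFactor_ne_zero h hs e

/-- **To the right of `0` the multiplicities are those of `E`.** -/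
theorem order_xiF (h : HasFunctionalEquation a m E lam mu Q omega) {ρ : ℂ} (hρ : 0 < ρ.re) :
    analyticOrderAt (xiF m E lam mu Q omega) ρ = analyticOrderAt E ρ := by
  have hU : IsOpen {z : ℂ | 0 < z.re} := isOpen_lt continuous_const Complex.continuous_re
  have hg : AnalyticAt ℂ (fun z => z ^ m * gammaFactor lam mu Q z) ρ := by
    refine DifferentiableOn.analyticAt (s := {z : ℂ | 0 < z.re}) (fun z hz => ?_) (hU.mem_nhds hρ)
    unfold FA.DegreeGap.gammaFactor
    refine ((differentiableAt_id.pow m).mul ((differentiableAt_id.const_cpow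
      (Or.inl (ofReal_ne_zero.2 h.Q_pos.ne'))).mul (DifferentiableAt.fun_finsetProd fun j _ =>
        ?_))).differentiableWithinAt
    exact (Complex.differentiableAt_Gamma _ (no_pole_of_re_pos h hz j)).fun_comp' z
      ((differentiableAt_id.const_mul _).add_const _)
  have hne : ρ ^ m * gammaFactor lam mu Q ρ ≠ 0 := mul_ne_zero
    (pow_ne_zero _ fun e => by rw [e, zero_re] at hρ; exact lt_irrefl _ hρ)
    (gammaFactor_ne_zero h hρ)
  rw [analyticOrderAt_congr (g := (fun z => z ^ m * gammaFactor lam mu Q z) * E) (by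
      filter_upwards [hU.mem_nhds hρ] with z hz
      rw [xiF_eq_right hz, xiRight, Pi.mul_apply]),
    analyticOrderAt_mul hg (h.differentiable.analyticAt ρ), hg.analyticOrderAt_eq_zero.2 hne,
    zero_add]

/-- On `re s = 0`, away from the poles of the Gamma factor, the formula still holds. -/
theorem xiF_eq_right_of_no_pole (h : HasFunctionalEquation a m E lam mu Q omega) {s : ℂ}
    (hs0 : 0 ≤ s.re) (hs : ∀ (j : Fin r) (n : ℕ), (lam j : ℂ) * s + mu j ≠ -(n : ℂ)) :
    xiF m E lam mu Q omega s = xiRight m E lam mu Q s := by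
  have hmap : Tendsto (fun x : ℝ => s + x) (𝓝[>] 0) (𝓝 s) := by
    have h0 : Continuous fun x : ℝ => s + (x : ℂ) := by fun_prop
    simpa using (h0.tendsto 0).mono_left (nhdsWithin_le_nhds (s := Ioi (0 : ℝ)))
  refine tendsto_nhds_unique_of_eventuallyEq
    (((differentiable_xiF h s).continuousAt.tendsto).comp hmap)
    (((differentiableAt_xiRight h hs).continuousAt.tendsto).comp hmap) ?_
  filter_upwards [self_mem_nhdsWithin] with x hx
  exact xiF_eq_right (by simp only [add_re, ofReal_re]; linarith [mem_Ioi.1 hx])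

/-- `(t + 1) log (t + 3)`. -/
def growY (t : ℝ) : ℝ := (t + 1) * Real.log (t + 3)

theorem one_le_log_add {t : ℝ} (ht : 0 ≤ t) : 1 ≤ Real.log (t + 3) := by
  rw [Real.le_log_iff_exp_le (by linarith)]
  linarith [Real.exp_one_lt_d9]

theorem le_growY {t : ℝ} (ht : 0 ≤ t) :
    Real.log (t + 3) ≤ growY t ∧ t + 1 ≤ growY t ∧ 1 ≤ growY t := by
  have h := one_le_log_add ht
  rw [growY]
  refine ⟨?_, ?_, ?_⟩ <;> nlinarith

theorem growY_le_of_le {t t' : ℝ} (ht : 0 ≤ t) (ht' : 0 ≤ t') (hle : t' ≤ t + 2) :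
    growY t' ≤ 6 * growY t := by
  have h1 : Real.log (t' + 3) ≤ 2 * Real.log (t + 3) := by
    rw [show (2 : ℝ) * Real.log (t + 3) = Real.log ((t + 3) ^ 2) by rw [Real.log_pow]; norm_num]
    exact Real.log_le_log (by linarith) (by nlinarith)
  rw [growY, growY, show 6 * ((t + 1) * Real.log (t + 3)) = (3 * (t + 1)) * (2 * Real.log (t + 3))
    by ring]
  exact mul_le_mul (by linarith) h1 (Real.log_nonneg (by linarith)) (by linarith)

theorem le_exp_mul_growY {c t : ℝ} (hc : 0 ≤ c) (ht : 0 ≤ t) : c ≤ Real.exp (c * growY t) :=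
  (le_mul_of_one_le_right hc (le_growY ht).2.2).trans
    (by linarith [Real.add_one_le_exp (c * growY t)])

theorem pow_le_exp_growY {t : ℝ} (ht : 0 ≤ t) (k : ℕ) :
    (t + 1) ^ k ≤ Real.exp (k * growY t) := by
  rw [Real.exp_nat_mul]
  exact pow_le_pow_left₀ (by linarith)
    ((le_growY ht).2.1.trans (by linarith [Real.add_one_le_exp (growY t)])) k

theorem exists_norm_E_le (h : HasFunctionalEquation a m E lam mu Q omega) :
    ∃ B : ℝ, ∀ s : ℂ, 1 / 2 ≤ s.re → ‖E s‖ ≤ Real.exp (B * growY ‖s‖) := by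
  obtain ⟨k, C, hC, hb⟩ := exists_strip_bound h (A := -1) (B := 2) (by norm_num) (by norm_num)
  obtain ⟨S, hS⟩ : ∃ S, S = ∑' n, ‖LSeries.term a ((2 : ℝ) : ℂ) n‖ := ⟨_, rfl⟩
  have hS0 : 0 ≤ S := hS ▸ tsum_nonneg fun _ => norm_nonneg _
  refine ⟨C + S + (k + m : ℕ), fun s hs => ?_⟩
  have ht := norm_nonneg s
  have key : ‖E s‖ ≤ (C + S) * (‖s‖ + 1) ^ (k + m) := by
    have h1 : 1 ≤ ‖s‖ + 1 := by linarith
    rcases le_or_gt s.re 2 with h2 | h2
    · calc ‖E s‖ ≤ C * (1 + |s.im|) ^ k := hb s (by linarith) h2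
        _ ≤ (C + S) * (‖s‖ + 1) ^ (k + m) := mul_le_mul (by linarith)
            ((pow_le_pow_left₀ (by positivity) (by linarith [Complex.abs_im_le_norm s]) k).trans
              (pow_le_pow_right₀ h1 (by omega))) (by positivity) (by linarith)
    · rw [h.eq_series s (by linarith), norm_mul, norm_pow, mul_comm]
      refine mul_le_mul ((FA.DegreeGap.norm_lSeries_le (h.summable _ (by norm_num)) h2.le).trans
        (by linarith)) ((pow_le_pow_left₀ (norm_nonneg _) ((norm_sub_le _ _).trans
          (by rw [norm_one])) m).trans (pow_le_pow_right₀ h1 (by omega))) (by positivity)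
          (by linarith)
  refine key.trans ?_
  rw [add_mul (C + S), Real.exp_add]
  exact mul_le_mul (le_exp_mul_growY (by linarith) ht) (pow_le_exp_growY ht _) (by positivity)
    (Real.exp_nonneg _)

theorem exists_norm_Gamma_le_growY {l : ℝ} (hl : 0 < l) {μ : ℂ} (hμ : 0 ≤ μ.re) :
    ∃ B : ℝ, ∀ s : ℂ, 1 / 2 ≤ s.re →
      ‖Complex.Gamma ((l : ℂ) * s + μ)‖ ≤ Real.exp (B * growY ‖s‖) := by
  obtain ⟨c, hc⟩ : ∃ c, c = l + μ.re + 1 := ⟨_, rfl⟩
  refine ⟨4 / l + c * (c + 1), fun s hs => ?_⟩
  have ht := norm_nonneg s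
  obtain ⟨x, hx⟩ : ∃ x, x = ((l : ℂ) * s + μ).re := ⟨_, rfl⟩
  have hx' : x = l * s.re + μ.re := by rw [hx, add_re, re_ofReal_mul]
  have hls := mul_le_mul_of_nonneg_left hs hl.le
  have hlt := mul_le_mul_of_nonneg_left (Complex.re_le_norm s) hl.le
  have hxl : l / 2 ≤ x := by linarith
  have hx0 : 0 < x := by linarith
  refine (FA.HeckeBS.norm_Gamma_le_re (hx ▸ hx0)).trans ?_
  rw [← hx]
  have hμt := mul_nonneg hμ ht
  have h1 : x + 1 ≤ c * (‖s‖ + 1) := by rw [hc]; nlinarith
  have h2 : x + 1 + 1 ≤ c * (‖s‖ + 3) := by rw [hc]; nlinarith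
  have hlog : Real.log (x + 1 + 1) ≤ (c + 1) * Real.log (‖s‖ + 3) := by
    refine (Real.log_le_log (by linarith) h2).trans ?_
    rw [Real.log_mul (by linarith) (by linarith), add_mul, one_mul]
    linarith [Real.log_le_sub_one_of_pos (show 0 < c by linarith),
      le_mul_of_one_le_right (show 0 ≤ c by linarith) (one_le_log_add ht)]
  calc Real.Gamma x = Real.Gamma (x + 1) / x := by
        rw [Real.Gamma_add_one hx0.ne']
        field_simp
    _ ≤ 2 * (x + 1 + 1) ^ (x + 1) / (l / 2) := div_le_div₀ (by positivity)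
        (FA.DegreeGap.Gamma_le_rpow (by linarith)) (by linarith) hxl
    _ = 4 / l * Real.exp (Real.log (x + 1 + 1) * (x + 1)) := by
        rw [Real.rpow_def_of_pos (by linarith)]
        field_simp
        ring
    _ ≤ Real.exp (4 / l * growY ‖s‖) * Real.exp (c * (c + 1) * growY ‖s‖) :=
        mul_le_mul (le_exp_mul_growY (by positivity) ht) (Real.exp_le_exp.2 (by
          refine (mul_le_mul hlog h1 (by linarith)
            (mul_nonneg (by linarith) (Real.log_nonneg (by linarith)))).trans_eq ?_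
          rw [growY]
          ring)) (Real.exp_nonneg _) (Real.exp_nonneg _)
    _ = _ := by rw [← Real.exp_add, ← add_mul]

/-- **Order one.** -/
theorem exists_growth_xiF (h : HasFunctionalEquation a m E lam mu Q omega) :
    ∃ B : ℝ, ∀ s : ℂ, ‖xiF m E lam mu Q omega s‖ ≤ Real.exp (B * growY ‖s‖) := by
  obtain ⟨B₁, hE⟩ := exists_norm_E_le h
  choose G hG using fun j => exists_norm_Gamma_le_growY (h.lam_pos j) (h.mu_re j)
  obtain ⟨B₀, hB₀⟩ : ∃ B₀, B₀ = (m : ℝ) + (|Real.log Q| + ∑ j, G j) + B₁ := ⟨_, rfl⟩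
  have hR : ∀ s : ℂ, 1 / 2 ≤ s.re →
      ‖xiF m E lam mu Q omega s‖ ≤ Real.exp (B₀ * growY ‖s‖) := fun s hs => by
    have ht := norm_nonneg s
    rw [xiF_eq_right (by linarith), xiRight, norm_mul, norm_mul, norm_pow,
      FA.DegreeGap.gammaFactor, norm_mul, norm_prod, norm_cpow_eq_rpow_re_of_pos h.Q_pos, hB₀,
      add_mul, add_mul, Real.exp_add, Real.exp_add, add_mul, Real.exp_add, Finset.sum_mul,
      Real.exp_sum]
    refine mul_le_mul (mul_le_mul ((pow_le_pow_left₀ ht (by linarith) m).trans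
      (pow_le_exp_growY ht m)) (mul_le_mul ?_ (Finset.prod_le_prod (fun j _ => norm_nonneg _)
        fun j _ => hG j s hs) ?_ (Real.exp_nonneg _)) ?_ (Real.exp_nonneg _)) (hE s hs)
      (norm_nonneg _) (by positivity)
    · rw [Real.rpow_def_of_pos h.Q_pos]
      refine Real.exp_le_exp.2 ((le_abs_self _).trans ?_)
      rw [abs_mul]
      refine mul_le_mul_of_nonneg_left ((Complex.abs_re_le_norm s).trans ?_) (abs_nonneg _)
      linarith [(le_growY ht).2.1]
    · exact Finset.prod_nonneg fun j _ => norm_nonneg _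
    · exact mul_nonneg (Real.rpow_nonneg h.Q_pos.le _)
        (Finset.prod_nonneg fun j _ => norm_nonneg _)
  refine ⟨6 * |B₀|, fun s => ?_⟩
  have ht := norm_nonneg s
  have hpos : 0 ≤ growY ‖s‖ := zero_le_one.trans (le_growY ht).2.2
  rcases le_or_gt (1 / 2) s.re with hs | hs
  · exact (hR s hs).trans (Real.exp_le_exp.2 (mul_le_mul_of_nonneg_right
      (by linarith [le_abs_self B₀, abs_nonneg B₀]) hpos))
  · rw [xiF_reflect h, norm_mul, h.norm_omega, one_mul, Complex.norm_conj]
    refine (hR _ (by simp; linarith)).trans (Real.exp_le_exp.2 ?_)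
    refine (mul_le_mul_of_nonneg_right (le_abs_self B₀)
      (zero_le_one.trans (le_growY (norm_nonneg _)).2.2)).trans ?_
    rw [mul_comm 6, mul_assoc]
    refine mul_le_mul_of_nonneg_left (growY_le_of_le ht (norm_nonneg _)
      ((norm_sub_le _ _).trans ?_)) (abs_nonneg B₀)
    rw [norm_one, Complex.norm_conj]
    linarith

end FA.SelbergHadamard

end
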